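import Mathlib

/-!
# Row LT, asset AUT-UNIQUE (helper415): abstract core

OFF-MAIN.  Mathlib only.

A *place datum* of a commutative topological ring `A` with values in a topological field `F`
is a continuous ring homomorphism `pr : A →+* F` together with a continuous section
`sec : F → A` such that `x * sec 1 = sec (pr x)` (so `sec 1` is the idempotent of the place and
`sec` is the inclusion of the factor `F`).

For a continuous ring endomorphism `τ` of `A` which is `σ`-semilinear over a subfield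
`ι : K →+* A` we prove

* `PlaceDatum.pr_tau_idem_eq_zero` (no cross-talk): if some `x ∈ K` is topologically nilpotent
  at the place `P₁` while `σ x` is not topologically nilpotent at `P₂`, then the `P₂`-component
  of `τ (e₁)` vanishes;
* `PlaceDatum.pr_tau_eq` (transport): if the `P₂`-component of `τ (e₁)` is `1`, then
  `P₂.pr ∘ τ = ψ ∘ P₁.pr` for the continuous ring homomorphism `ψ = P₂.pr ∘ τ ∘ P₁.sec`.
-/

set_option autoImplicit false

open Filter Topology

namespace Fermat.Agent.LT.H415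

/-- A place of the topological ring `A` with local field `F`: projection and section. -/
structure PlaceDatum (A F : Type*) [CommRing A] [TopologicalSpace A] [Field F]
    [TopologicalSpace F] where
  /-- the projection onto the factor -/
  pr : A →+* F
  /-- the inclusion of the factor (not unital) -/
  sec : F → A
  cont_pr : Continuous pr
  cont_sec : Continuous sec
  mul_sec_one : ∀ x : A, x * sec 1 = sec (pr x)
  pr_sec : ∀ a : F, pr (sec a) = a

namespace PlaceDatum

variable {A F F₁ F₂ K : Type*} [CommRing A] [TopologicalSpace A] [Field F] [TopologicalSpace F]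
  [Field F₁] [TopologicalSpace F₁] [Field F₂] [TopologicalSpace F₂] [Field K]

/-- The idempotent of the place. -/
def idem (P : PlaceDatum A F) : A := P.sec 1

theorem pr_idem (P : PlaceDatum A F) : P.pr P.idem = 1 := P.pr_sec 1

theorem mul_idem (P : PlaceDatum A F) (x : A) : x * P.idem = P.sec (P.pr x) := P.mul_sec_one x

theorem idem_mul_idem (P : PlaceDatum A F) : P.idem * P.idem = P.idem := by
  rw [P.mul_idem, P.pr_idem]; rfl

theorem sec_zero (P : PlaceDatum A F) : P.sec 0 = 0 := by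
  have h := P.mul_idem 0
  rw [zero_mul, map_zero] at h
  exact h.symm

theorem sec_eq_mul_idem (P : PlaceDatum A F) (x : A) : P.sec (P.pr x) = x * P.idem :=
  (P.mul_idem x).symm

theorem idem_ne_zero (P : PlaceDatum A F) : P.idem ≠ 0 := by
  intro h
  have h1 := P.pr_idem
  rw [h, map_zero] at h1
  exact zero_ne_one h1

/-- The component at a place of the image of an idempotent is `0` or `1`. -/
theorem pr_map_idem (P₁ : PlaceDatum A F₁) (P₂ : PlaceDatum A F₂) (τ : A →+* A) :
    P₂.pr (τ P₁.idem) = 0 ∨ P₂.pr (τ P₁.idem) = 1 := by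
  have h : P₂.pr (τ P₁.idem) * P₂.pr (τ P₁.idem) = P₂.pr (τ P₁.idem) := by
    rw [← map_mul, ← map_mul, P₁.idem_mul_idem]
  rcases eq_or_ne (P₂.pr (τ P₁.idem)) 0 with h0 | h0
  · exact Or.inl h0
  · right
    have h2 : P₂.pr (τ P₁.idem) * (P₂.pr (τ P₁.idem) - 1) = 0 := by
      rw [mul_sub, h, mul_one, sub_self]
    rcases mul_eq_zero.1 h2 with h3 | h3
    · exact absurd h3 h0
    · exact sub_eq_zero.1 h3

/-- **No cross-talk.**  If `x ∈ K` is topologically nilpotent at `P₁` and `σ x` is not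
topologically nilpotent at `P₂`, the `P₂`-component of `τ e₁` vanishes. -/
theorem pr_tau_idem_eq_zero (P₁ : PlaceDatum A F₁) (P₂ : PlaceDatum A F₂) (ι : K →+* A)
    (σ : K → K) (τ : A →+* A) (hτ : Continuous τ) (hτι : ∀ x, τ (ι x) = ι (σ x)) (x : K)
    (h1 : Tendsto (fun n : ℕ => P₁.pr (ι x) ^ n) atTop (𝓝 0))
    (h2 : ¬ Tendsto (fun n : ℕ => P₂.pr (ι (σ x)) ^ n) atTop (𝓝 0)) :
    P₂.pr (τ P₁.idem) = 0 := by
  rcases P₁.pr_map_idem P₂ τ with h | h
  · exact h
  · exfalso
    apply h2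
    have hc : Continuous fun a : F₁ => P₂.pr (τ (P₁.sec a)) :=
      P₂.cont_pr.comp (hτ.comp P₁.cont_sec)
    have ht : Tendsto (fun n : ℕ => P₂.pr (τ (P₁.sec (P₁.pr (ι x) ^ n)))) atTop
        (𝓝 (P₂.pr (τ (P₁.sec 0)))) := (hc.tendsto 0).comp h1
    rw [P₁.sec_zero, map_zero, map_zero] at ht
    refine ht.congr fun n => ?_
    rw [← map_pow P₁.pr, P₁.sec_eq_mul_idem, map_mul, map_mul, h, mul_one, map_pow τ, hτι,
      map_pow]

/-- The local homomorphism `ψ = P₂.pr ∘ τ ∘ P₁.sec`. -/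
def localMap (P₁ : PlaceDatum A F₁) (P₂ : PlaceDatum A F₂) (τ : A →+* A) : F₁ → F₂ :=
  fun a => P₂.pr (τ (P₁.sec a))

theorem continuous_localMap (P₁ : PlaceDatum A F₁) (P₂ : PlaceDatum A F₂) (τ : A →+* A)
    (hτ : Continuous τ) : Continuous (localMap P₁ P₂ τ) :=
  P₂.cont_pr.comp (hτ.comp P₁.cont_sec)

/-- **Transport.**  If the `P₂`-component of `τ e₁` is `1`, then the `P₂`-component of `τ x`
only depends on the `P₁`-component of `x`. -/
theorem pr_tau_eq (P₁ : PlaceDatum A F₁) (P₂ : PlaceDatum A F₂) (τ : A →+* A)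
    (h : P₂.pr (τ P₁.idem) = 1) (x : A) :
    P₂.pr (τ x) = localMap P₁ P₂ τ (P₁.pr x) := by
  unfold localMap
  rw [P₁.sec_eq_mul_idem, map_mul, map_mul, h, mul_one]

theorem localMap_one (P₁ : PlaceDatum A F₁) (P₂ : PlaceDatum A F₂) (τ : A →+* A)
    (h : P₂.pr (τ P₁.idem) = 1) : localMap P₁ P₂ τ 1 = 1 := h

theorem localMap_mul (P₁ : PlaceDatum A F₁) (P₂ : PlaceDatum A F₂) (τ : A →+* A)
    (h : P₂.pr (τ P₁.idem) = 1) (a b : F₁) :
    localMap P₁ P₂ τ (a * b) = localMap P₁ P₂ τ a * localMap P₁ P₂ τ b := by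
  have hab := pr_tau_eq P₁ P₂ τ h (P₁.sec a * P₁.sec b)
  rw [map_mul P₁.pr, P₁.pr_sec, P₁.pr_sec] at hab
  rw [← hab, map_mul τ, map_mul P₂.pr]
  rfl

theorem localMap_add (P₁ : PlaceDatum A F₁) (P₂ : PlaceDatum A F₂) (τ : A →+* A)
    (h : P₂.pr (τ P₁.idem) = 1) (a b : F₁) :
    localMap P₁ P₂ τ (a + b) = localMap P₁ P₂ τ a + localMap P₁ P₂ τ b := by
  have hab := pr_tau_eq P₁ P₂ τ h (P₁.sec a + P₁.sec b)
  rw [map_add P₁.pr, P₁.pr_sec, P₁.pr_sec] at hab
  rw [← hab, map_add τ, map_add P₂.pr]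
  rfl

theorem localMap_zero (P₁ : PlaceDatum A F₁) (P₂ : PlaceDatum A F₂) (τ : A →+* A) :
    localMap P₁ P₂ τ 0 = 0 := by
  unfold localMap
  rw [P₁.sec_zero, map_zero, map_zero]

/-- The local homomorphism as a ring homomorphism. -/
def localHom (P₁ : PlaceDatum A F₁) (P₂ : PlaceDatum A F₂) (τ : A →+* A)
    (h : P₂.pr (τ P₁.idem) = 1) : F₁ →+* F₂ where
  toFun := localMap P₁ P₂ τ
  map_one' := localMap_one P₁ P₂ τ h
  map_mul' := localMap_mul P₁ P₂ τ h
  map_zero' := localMap_zero P₁ P₂ τ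
  map_add' := localMap_add P₁ P₂ τ h

theorem localMap_of_field (P₁ : PlaceDatum A F₁) (P₂ : PlaceDatum A F₂) (ι : K →+* A)
    (σ : K → K) (τ : A →+* A) (hτι : ∀ x, τ (ι x) = ι (σ x))
    (h : P₂.pr (τ P₁.idem) = 1) (x : K) :
    localMap P₁ P₂ τ (P₁.pr (ι x)) = P₂.pr (ι (σ x)) := by
  rw [← pr_tau_eq P₁ P₂ τ h, hτι]

/-- **Same place, identity on a dense subfield.**  If `τ` fixes `K`, `K` is dense at the place
`P` and the `P`-component of `τ e` is `1`, then `τ` does not change `P`-components. -/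
theorem pr_tau_eq_self [T2Space F] (P : PlaceDatum A F) (ι : K →+* A) (τ : A →+* A)
    (hτ : Continuous τ) (hτι : ∀ x, τ (ι x) = ι x)
    (hd : DenseRange fun x : K => P.pr (ι x)) (h : P.pr (τ P.idem) = 1) (x : A) :
    P.pr (τ x) = P.pr x := by
  have hid : localMap P P τ = id := by
    refine hd.equalizer (continuous_localMap P P τ hτ) continuous_id ?_
    funext y
    simp only [Function.comp_apply, id]
    exact localMap_of_field P P ι id τ hτι h y
  rw [pr_tau_eq P P τ h, hid]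
  rfl

end PlaceDatum

end Fermat.Agent.LT.H415
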