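import Mathlib
import Fermat.Agent.LT.H415.AutAbs

/-!
# Row LT, asset AUT-UNIQUE (helper415): the places of the adele ring as place data

OFF-MAIN.  Mathlib only.
-/

set_option autoImplicit false

open IsDedekindDomain NumberField Filter Topology

noncomputable section

namespace Fermat.Agent.LT.H415

/-! ## Continuity of `RestrictedProduct.single` -/

section Single

variable {ι : Type*} {R : ι → Type*} {S : ι → Type*} [∀ i, SetLike (S i) (R i)] (A : ∀ i, S i)
  [DecidableEq ι] [∀ i, Zero (R i)] [∀ i, ZeroMemClass (S i) (R i)]
  [∀ i, TopologicalSpace (R i)]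

theorem continuous_rp_single415 (i : ι) : Continuous (RestrictedProduct.single A i) := by
  have hle : (Filter.cofinite : Filter ι) ≤ Filter.principal ({i}ᶜ : Set ι) := by
    rw [Filter.le_principal_iff]
    exact (Set.finite_singleton i).compl_mem_cofinite
  let f : R i → RestrictedProduct R (fun j => (A j : Set (R j)))
      (Filter.principal ({i}ᶜ : Set ι)) :=
    fun a => ⟨Pi.single i a, by
      rw [Filter.eventually_principal]
      intro j hj
      rw [Pi.single_eq_of_ne hj]
      exact zero_mem _⟩
  have hf : Continuous f := by
    rw [RestrictedProduct.continuous_rng_of_principal]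
    exact continuous_single i
  have h : RestrictedProduct.single A i = RestrictedProduct.inclusion R _ hle ∘ f := by
    funext a
    ext j
    rfl
  rw [h]
  exact (RestrictedProduct.continuous_inclusion hle).comp hf

end Single

variable (K : Type*) [Field K] [NumberField K]

/-- The place datum of a finite place. -/
def finPlace (v : HeightOneSpectrum (𝓞 K)) :
    PlaceDatum (AdeleRing (𝓞 K) K) (v.adicCompletion K) := by
  classical
  exact
  { pr := (RestrictedProduct.evalRingHom
        (fun v : HeightOneSpectrum (𝓞 K) => v.adicCompletion K) v).comp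
      (RingHom.snd (InfiniteAdeleRing K) (FiniteAdeleRing (𝓞 K) K))
    sec := fun a => ((0 : InfiniteAdeleRing K),
      (RestrictedProduct.single
        (fun v : HeightOneSpectrum (𝓞 K) => v.adicCompletionIntegers K) v a :
          FiniteAdeleRing (𝓞 K) K))
    cont_pr := (RestrictedProduct.continuous_eval v).comp continuous_snd
    cont_sec := continuous_const.prodMk
      (continuous_rp_single415 (fun v : HeightOneSpectrum (𝓞 K) => v.adicCompletionIntegers K) v)
    mul_sec_one := fun x => by
      refine Prod.ext (mul_zero _) ?_
      have h := RestrictedProduct.mul_single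
        (fun v : HeightOneSpectrum (𝓞 K) => v.adicCompletionIntegers K) v
        (1 : v.adicCompletion K) x.2
      rw [mul_one] at h
      exact h.symm
    pr_sec := fun a => RestrictedProduct.single_eq_same
      (fun v : HeightOneSpectrum (𝓞 K) => v.adicCompletionIntegers K) (i := v) a }

/-- The place datum of an infinite place. -/
def infPlace (w : InfinitePlace K) :
    PlaceDatum (AdeleRing (𝓞 K) K) w.Completion := by
  classical
  exact
  { pr := (Pi.evalRingHom (fun v : InfinitePlace K => v.Completion) w).comp
      (RingHom.fst (InfiniteAdeleRing K) (FiniteAdeleRing (𝓞 K) K))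
    sec := fun a => ((Pi.single w a : InfiniteAdeleRing K), (0 : FiniteAdeleRing (𝓞 K) K))
    cont_pr := (continuous_apply w).comp continuous_fst
    cont_sec := (continuous_single w).prodMk continuous_const
    mul_sec_one := fun x => by
      refine Prod.ext ?_ (mul_zero _)
      funext w'
      change x.1 w' * (Pi.single w (1 : w.Completion) : InfiniteAdeleRing K) w'
        = (Pi.single w (x.1 w) : InfiniteAdeleRing K) w'
      by_cases h : w' = w
      · subst h
        rw [Pi.single_eq_same, Pi.single_eq_same, mul_one]
      · rw [Pi.single_eq_of_ne h, Pi.single_eq_of_ne h, mul_zero]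
    pr_sec := fun a => Pi.single_eq_same w a }

@[simp] theorem finPlace_pr_apply (v : HeightOneSpectrum (𝓞 K)) (x : AdeleRing (𝓞 K) K) :
    (finPlace K v).pr x = x.2 v := rfl

@[simp] theorem infPlace_pr_apply (w : InfinitePlace K) (x : AdeleRing (𝓞 K) K) :
    (infPlace K w).pr x = x.1 w := rfl

theorem finPlace_pr_algebraMap (v : HeightOneSpectrum (𝓞 K)) (x : K) :
    (finPlace K v).pr (algebraMap K (AdeleRing (𝓞 K) K) x) = (x : v.adicCompletion K) := rfl

theorem infPlace_pr_algebraMap (w : InfinitePlace K) (x : K) :
    (infPlace K w).pr (algebraMap K (AdeleRing (𝓞 K) K) x) = (x : w.Completion) := rfl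

/-- Extensionality of adeles by place components. -/
theorem adele_ext415 {x y : AdeleRing (𝓞 K) K}
    (hf : ∀ v : HeightOneSpectrum (𝓞 K), (finPlace K v).pr x = (finPlace K v).pr y)
    (hi : ∀ w : InfinitePlace K, (infPlace K w).pr x = (infPlace K w).pr y) : x = y := by
  refine Prod.ext (funext hi) ?_
  exact FiniteAdeleRing.ext K hf

end Fermat.Agent.LT.H415
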