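import Mathlib
import Fermat.Agent.LT.H415.AutPlaces

/-!
# Row LT, asset AUT-UNIQUE (helper415): separation of places by elements of `K`

OFF-MAIN.  Mathlib only.

For a field automorphism `σ` of the number field `K` and two places `P₁`, `P₂` of `K` such that
`P₂ ≠ σ P₁`, there is `x ∈ K` with `|x|_{P₁} < 1` and `|σ x|_{P₂} ≥ 1`.  Four cases
(finite/finite, finite/infinite, infinite/finite, infinite/infinite).
-/

set_option autoImplicit false
set_option linter.unusedSectionVars false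

open IsDedekindDomain NumberField Filter Topology

noncomputable section

namespace Fermat.Agent.LT.H415

variable (K : Type*) [Field K] [NumberField K]

/-- `v'` is the image of the finite place `v` under `σ` (= `T5.PlaceRel`). -/
def FinRel (σ : K ≃+* K) (v v' : HeightOneSpectrum (𝓞 K)) : Prop :=
  v'.asIdeal = Ideal.map (NumberField.RingOfIntegers.mapRingEquiv σ) v.asIdeal

/-- The image of the infinite place `w` under `σ`: `|x|_{σ w} = |σ⁻¹ x|_w`. -/
def infImage (σ : K ≃+* K) (w : InfinitePlace K) : InfinitePlace K :=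
  w.comap (σ.symm : K →+* K)

variable {K}

theorem infImage_apply (σ : K ≃+* K) (w : InfinitePlace K) (x : K) :
    infImage K σ w (σ x) = w x := by
  unfold infImage
  rw [InfinitePlace.comap_apply]
  simp

theorem norm_infCoe415 (w : InfinitePlace K) (x : K) :
    ‖(algebraMap K (AdeleRing (𝓞 K) K) x).1 w‖ = w x := by
  have := InfinitePlace.Completion.norm_coe (v := w) ((WithAbs.equiv w.1).symm x)
  simpa using this

theorem norm_finCoe415 (v : HeightOneSpectrum (𝓞 K)) (x : K) :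
    ‖(algebraMap K (AdeleRing (𝓞 K) K) x).2 v‖ = ‖FinitePlace.embedding v x‖ := rfl

/-- finite / finite -/
theorem sep_ff415 (σ : K ≃+* K) (v v' u : HeightOneSpectrum (𝓞 K)) (hv : FinRel K σ v v')
    (hu : u ≠ v') :
    ∃ x : K, ‖(algebraMap K (AdeleRing (𝓞 K) K) x).2 v‖ < 1 ∧
      ¬ ‖(algebraMap K (AdeleRing (𝓞 K) K) (σ x)).2 u‖ < 1 := by
  have hne : ¬ v'.asIdeal ≤ u.asIdeal := by
    intro hle
    have hmax : v'.asIdeal.IsMaximal := v'.isMaximal
    rcases hmax.eq_of_le u.isPrime.ne_top hle with h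
    exact hu (HeightOneSpectrum.ext h.symm)
  obtain ⟨y, hy, hyu⟩ := Set.not_subset.1 hne
  rw [SetLike.mem_coe, hv, Ideal.mem_map_of_equiv] at hy
  obtain ⟨x, hx, rfl⟩ := hy
  refine ⟨(x : K), ?_, ?_⟩
  · rw [norm_finCoe415]
    exact (FinitePlace.norm_lt_one_iff_mem K v x).2 hx
  · rw [norm_finCoe415]
    have h1 : ‖FinitePlace.embedding u
        (algebraMap (𝓞 K) K (NumberField.RingOfIntegers.mapRingEquiv σ x))‖ = 1 :=
      (FinitePlace.norm_eq_one_iff_notMem K u _).2 hyu
    have h2 : (algebraMap (𝓞 K) K (NumberField.RingOfIntegers.mapRingEquiv σ x)) = σ (x : K) :=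
      rfl
    rw [h2] at h1
    rw [h1]
    exact lt_irrefl 1

/-- finite / infinite -/
theorem sep_fi415 (σ : K ≃+* K) (v : HeightOneSpectrum (𝓞 K)) (w : InfinitePlace K) :
    ∃ x : K, ‖(algebraMap K (AdeleRing (𝓞 K) K) x).2 v‖ < 1 ∧
      ¬ ‖(algebraMap K (AdeleRing (𝓞 K) K) (σ x)).1 w‖ < 1 := by
  refine ⟨((Ideal.absNorm v.asIdeal : ℕ) : K), ?_, ?_⟩
  · rw [norm_finCoe415]
    have h := (FinitePlace.norm_lt_one_iff_mem K v ((Ideal.absNorm v.asIdeal : ℕ) : 𝓞 K)).2
      (Ideal.absNorm_mem v.asIdeal)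
    simp at h ⊢
    exact h
  · rw [norm_infCoe415, map_natCast, not_lt]
    have h1 : w ((Ideal.absNorm v.asIdeal : ℕ) : K) = (Ideal.absNorm v.asIdeal : ℝ) := by
      have := InfinitePlace.map_intCast w (Ideal.absNorm v.asIdeal : ℤ)
      simpa using this
    rw [h1]
    exact_mod_cast (HeightOneSpectrum.one_lt_absNorm v).le

/-- infinite / finite -/
theorem sep_if415 (σ : K ≃+* K) (w : InfinitePlace K) (v : HeightOneSpectrum (𝓞 K)) :
    ∃ x : K, ‖(algebraMap K (AdeleRing (𝓞 K) K) x).1 w‖ < 1 ∧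
      ¬ ‖(algebraMap K (AdeleRing (𝓞 K) K) (σ x)).2 v‖ < 1 := by
  refine ⟨(2 : K)⁻¹, ?_, ?_⟩
  · rw [norm_infCoe415, map_inv₀]
    have h1 : w (2 : K) = 2 := by
      have := InfinitePlace.map_intCast w (2 : ℤ)
      simp only [Int.cast_ofNat] at this
      rw [this, Int.norm_eq_abs]
      norm_num
    rw [h1]
    norm_num
  · rw [map_inv₀, map_ofNat, norm_finCoe415, map_inv₀, norm_inv, not_lt]
    have h2 : ‖FinitePlace.embedding v (algebraMap (𝓞 K) K (2 : 𝓞 K))‖ ≤ 1 :=
      FinitePlace.norm_le_one K v 2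
    have h3 : (algebraMap (𝓞 K) K (2 : 𝓞 K)) = (2 : K) := map_ofNat _ 2
    rw [h3] at h2
    have h4 : (0 : ℝ) < ‖FinitePlace.embedding v (2 : K)‖ := by
      rw [norm_pos_iff]
      intro h0
      have : (2 : K) = 0 := (FinitePlace.embedding v).injective (by rw [h0, map_zero])
      exact two_ne_zero this
    exact (one_le_inv₀ h4).2 h2

/-- infinite / infinite -/
theorem sep_ii415 (σ : K ≃+* K) (w w' : InfinitePlace K) (hw : w' ≠ infImage K σ w) :
    ∃ x : K, ‖(algebraMap K (AdeleRing (𝓞 K) K) x).1 w‖ < 1 ∧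
      ¬ ‖(algebraMap K (AdeleRing (𝓞 K) K) (σ x)).1 w'‖ < 1 := by
  have hne : w ≠ w'.comap (σ : K →+* K) := by
    intro h
    apply hw
    unfold infImage
    rw [h, ← InfinitePlace.comap_comp]
    have : ((σ : K →+* K).comp (σ.symm : K →+* K)) = RingHom.id K := by
      ext x; simp
    rw [this, InfinitePlace.comap_id]
  have hneq : ¬ w.1.IsEquiv (w'.comap (σ : K →+* K)).1 :=
    fun h => hne (InfinitePlace.eq_iff_isEquiv.2 h)
  obtain ⟨x, hx1, hx2⟩ := AbsoluteValue.exists_lt_one_one_le_of_not_isEquiv w.isNontrivial hneq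
  refine ⟨x, ?_, ?_⟩
  · rw [norm_infCoe415]
    exact hx1
  · rw [norm_infCoe415, not_lt]
    have : (w'.comap (σ : K →+* K)) x = w' (σ x) := InfinitePlace.comap_apply _ _ _
    rw [← this]
    exact hx2

end Fermat.Agent.LT.H415
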