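import Mathlib
import Fermat.Agent.LT.H415.AutSep

/-!
# Row LT, asset AUT-UNIQUE (helper415): continuous automorphisms of the adele ring

OFF-MAIN.  Mathlib only.  `𝔸 = NumberField.AdeleRing (𝓞 K) K` (= `A0.Adl K`).

Let `σ : K ≃+* K` and let `τ : 𝔸 →+* 𝔸` be a continuous injective ring homomorphism with
`τ ∘ algebraMap = algebraMap ∘ σ`.

* `fin_transport415` : if `v' = σ v` (`FinRel`, = `T5.PlaceRel`) then
  `(τ a).2 v' = ψ (a.2 v)` for the continuous ring homomorphism `ψ = finLocal415`;
* `inf_transport415` : `(τ a).1 (σ w) = ψ (a.1 w)`, `σ w = infImage K σ w`;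
* `adele_endo_eq_id415` : if `σ = id`, then `τ = id`;
* `adele_aut_unique415` : two continuous ring automorphisms of `𝔸` which agree on `K` are equal;
* `adele_aut_iterate415` : if `σ ^ l = 1` then `τ^[l] = id`.
-/

set_option autoImplicit false
set_option linter.unusedSectionVars false

open IsDedekindDomain NumberField Filter Topology

noncomputable section

namespace Fermat.Agent.LT.H415

variable {K : Type*} [Field K] [NumberField K]

section Cross

variable (σ : K ≃+* K) (τ : AdeleRing (𝓞 K) K →+* AdeleRing (𝓞 K) K) (hτ : Continuous τ)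
  (hτσ : ∀ x : K, τ (algebraMap K (AdeleRing (𝓞 K) K) x) = algebraMap K (AdeleRing (𝓞 K) K) (σ x))

include hτ hτσ

theorem fin_fin_zero415 (v v' u : HeightOneSpectrum (𝓞 K)) (hv : FinRel K σ v v')
    (hu : u ≠ v') : (finPlace K u).pr (τ (finPlace K v).idem) = 0 := by
  obtain ⟨x, hx1, hx2⟩ := sep_ff415 σ v v' u hv hu
  exact PlaceDatum.pr_tau_idem_eq_zero (finPlace K v) (finPlace K u)
    (algebraMap K (AdeleRing (𝓞 K) K)) σ τ hτ hτσ x
    (tendsto_pow_atTop_nhds_zero_iff_norm_lt_one.2 hx1)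
    (fun h => hx2 (tendsto_pow_atTop_nhds_zero_iff_norm_lt_one.1 h))

theorem fin_inf_zero415 (v : HeightOneSpectrum (𝓞 K)) (w : InfinitePlace K) :
    (infPlace K w).pr (τ (finPlace K v).idem) = 0 := by
  obtain ⟨x, hx1, hx2⟩ := sep_fi415 σ v w
  exact PlaceDatum.pr_tau_idem_eq_zero (finPlace K v) (infPlace K w)
    (algebraMap K (AdeleRing (𝓞 K) K)) σ τ hτ hτσ x
    (tendsto_pow_atTop_nhds_zero_iff_norm_lt_one.2 hx1)
    (fun h => hx2 (tendsto_pow_atTop_nhds_zero_iff_norm_lt_one.1 h))

theorem inf_fin_zero415 (w : InfinitePlace K) (v : HeightOneSpectrum (𝓞 K)) :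
    (finPlace K v).pr (τ (infPlace K w).idem) = 0 := by
  obtain ⟨x, hx1, hx2⟩ := sep_if415 σ w v
  exact PlaceDatum.pr_tau_idem_eq_zero (infPlace K w) (finPlace K v)
    (algebraMap K (AdeleRing (𝓞 K) K)) σ τ hτ hτσ x
    (tendsto_pow_atTop_nhds_zero_iff_norm_lt_one.2 hx1)
    (fun h => hx2 (tendsto_pow_atTop_nhds_zero_iff_norm_lt_one.1 h))

theorem inf_inf_zero415 (w w' : InfinitePlace K) (hw : w' ≠ infImage K σ w) :
    (infPlace K w').pr (τ (infPlace K w).idem) = 0 := by
  obtain ⟨x, hx1, hx2⟩ := sep_ii415 σ w w' hw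
  exact PlaceDatum.pr_tau_idem_eq_zero (infPlace K w) (infPlace K w')
    (algebraMap K (AdeleRing (𝓞 K) K)) σ τ hτ hτσ x
    (tendsto_pow_atTop_nhds_zero_iff_norm_lt_one.2 hx1)
    (fun h => hx2 (tendsto_pow_atTop_nhds_zero_iff_norm_lt_one.1 h))

variable (hinj : Function.Injective τ)

include hinj

/-- The idempotent of `v` goes to the idempotent of `σ v`. -/
theorem fin_one415 (v v' : HeightOneSpectrum (𝓞 K)) (hv : FinRel K σ v v') :
    (finPlace K v').pr (τ (finPlace K v).idem) = 1 := by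
  rcases PlaceDatum.pr_map_idem (finPlace K v) (finPlace K v') τ with h | h
  · exfalso
    have h0 : τ (finPlace K v).idem = 0 := by
      refine adele_ext415 K (fun u => ?_) (fun w => ?_)
      · rw [map_zero]
        by_cases hu : u = v'
        · rw [hu]; exact h
        · exact fin_fin_zero415 σ τ hτ hτσ v v' u hv hu
      · rw [map_zero]
        exact fin_inf_zero415 σ τ hτ hτσ v w
    exact (finPlace K v).idem_ne_zero (hinj (by rw [h0, map_zero]))
  · exact h

/-- The idempotent of `w` goes to the idempotent of `σ w`. -/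
theorem inf_one415 (w : InfinitePlace K) :
    (infPlace K (infImage K σ w)).pr (τ (infPlace K w).idem) = 1 := by
  rcases PlaceDatum.pr_map_idem (infPlace K w) (infPlace K (infImage K σ w)) τ with h | h
  · exfalso
    have h0 : τ (infPlace K w).idem = 0 := by
      refine adele_ext415 K (fun u => ?_) (fun w' => ?_)
      · rw [map_zero]
        exact inf_fin_zero415 σ τ hτ hτσ w u
      · rw [map_zero]
        by_cases hw : w' = infImage K σ w
        · rw [hw]; exact h
        · exact inf_inf_zero415 σ τ hτ hτσ w w' hw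
    exact (infPlace K w).idem_ne_zero (hinj (by rw [h0, map_zero]))
  · exact h

/-- The local homomorphism `K_v → K_{σ v}` of `τ`. -/
def finLocal415 (v v' : HeightOneSpectrum (𝓞 K)) (hv : FinRel K σ v v') :
    v.adicCompletion K →+* v'.adicCompletion K :=
  PlaceDatum.localHom (finPlace K v) (finPlace K v') τ (fin_one415 σ τ hτ hτσ hinj v v' hv)

/-- The local homomorphism `K_w → K_{σ w}` of `τ`. -/
def infLocal415 (w : InfinitePlace K) : w.Completion →+* (infImage K σ w).Completion :=
  PlaceDatum.localHom (infPlace K w) (infPlace K (infImage K σ w)) τ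
    (inf_one415 σ τ hτ hτσ hinj w)

theorem continuous_finLocal415 (v v' : HeightOneSpectrum (𝓞 K)) (hv : FinRel K σ v v') :
    Continuous (finLocal415 σ τ hτ hτσ hinj v v' hv) :=
  PlaceDatum.continuous_localMap (finPlace K v) (finPlace K v') τ hτ

theorem continuous_infLocal415 (w : InfinitePlace K) :
    Continuous (infLocal415 σ τ hτ hτσ hinj w) :=
  PlaceDatum.continuous_localMap (infPlace K w) (infPlace K (infImage K σ w)) τ hτ

/-- **Transport at a finite place.** -/
theorem fin_transport415 (v v' : HeightOneSpectrum (𝓞 K)) (hv : FinRel K σ v v')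
    (a : AdeleRing (𝓞 K) K) :
    (τ a).2 v' = finLocal415 σ τ hτ hτσ hinj v v' hv (a.2 v) :=
  PlaceDatum.pr_tau_eq (finPlace K v) (finPlace K v') τ (fin_one415 σ τ hτ hτσ hinj v v' hv) a

/-- **Transport at an infinite place.** -/
theorem inf_transport415 (w : InfinitePlace K) (a : AdeleRing (𝓞 K) K) :
    (τ a).1 (infImage K σ w) = infLocal415 σ τ hτ hτσ hinj w (a.1 w) :=
  PlaceDatum.pr_tau_eq (infPlace K w) (infPlace K (infImage K σ w)) τ
    (inf_one415 σ τ hτ hτσ hinj w) a

theorem finLocal415_coe (v v' : HeightOneSpectrum (𝓞 K)) (hv : FinRel K σ v v') (x : K) :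
    finLocal415 σ τ hτ hτσ hinj v v' hv (x : v.adicCompletion K)
      = ((σ x : K) : v'.adicCompletion K) :=
  PlaceDatum.localMap_of_field (finPlace K v) (finPlace K v')
    (algebraMap K (AdeleRing (𝓞 K) K)) σ τ hτσ (fin_one415 σ τ hτ hτσ hinj v v' hv) x

theorem infLocal415_coe (w : InfinitePlace K) (x : K) :
    infLocal415 σ τ hτ hτσ hinj w (x : w.Completion)
      = ((σ x : K) : (infImage K σ w).Completion) :=
  PlaceDatum.localMap_of_field (infPlace K w) (infPlace K (infImage K σ w))
    (algebraMap K (AdeleRing (𝓞 K) K)) σ τ hτσ (inf_one415 σ τ hτ hτσ hinj w) x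

end Cross

/-! ## Uniqueness -/

theorem finRel_refl415 (v : HeightOneSpectrum (𝓞 K)) : FinRel K (RingEquiv.refl K) v v := by
  unfold FinRel
  ext y
  rw [Ideal.mem_map_of_equiv]
  constructor
  · intro hy
    exact ⟨y, hy, rfl⟩
  · rintro ⟨x, hx, rfl⟩
    exact hx

theorem infImage_refl415 (w : InfinitePlace K) : infImage K (RingEquiv.refl K) w = w := by
  refine InfinitePlace.ext _ _ fun x => ?_
  have := infImage_apply (RingEquiv.refl K) w x
  simpa using this

theorem denseRange_fin415 (v : HeightOneSpectrum (𝓞 K)) :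
    DenseRange fun x : K => (finPlace K v).pr (algebraMap K (AdeleRing (𝓞 K) K) x) := by
  have h := HeightOneSpectrum.denseRange_algebraMap K v
  exact h

theorem denseRange_inf415 (w : InfinitePlace K) :
    DenseRange fun x : K => (infPlace K w).pr (algebraMap K (AdeleRing (𝓞 K) K) x) := by
  have h1 : DenseRange (algebraMap K (InfiniteAdeleRing K)) :=
    InfiniteAdeleRing.denseRange_algebraMap K
  have h2 : DenseRange (fun f : InfiniteAdeleRing K => f w) :=
    (Function.surjective_eval w).denseRange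
  exact h2.comp h1 (continuous_apply w)

/-- **A continuous injective ring endomorphism of the adele ring which fixes `K` is the
identity.** -/
theorem adele_endo_eq_id415 (τ : AdeleRing (𝓞 K) K →+* AdeleRing (𝓞 K) K) (hτ : Continuous τ)
    (hinj : Function.Injective τ)
    (hfix : ∀ x : K, τ (algebraMap K (AdeleRing (𝓞 K) K) x) = algebraMap K (AdeleRing (𝓞 K) K) x)
    (a : AdeleRing (𝓞 K) K) : τ a = a := by
  have hfix' : ∀ x : K, τ (algebraMap K (AdeleRing (𝓞 K) K) x)
      = algebraMap K (AdeleRing (𝓞 K) K) ((RingEquiv.refl K) x) := hfix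
  refine adele_ext415 K (fun v => ?_) (fun w => ?_)
  · exact PlaceDatum.pr_tau_eq_self (finPlace K v) (algebraMap K (AdeleRing (𝓞 K) K)) τ hτ hfix
      (denseRange_fin415 v)
      (fin_one415 (RingEquiv.refl K) τ hτ hfix' hinj v v (finRel_refl415 v)) a
  · have h1 := inf_one415 (RingEquiv.refl K) τ hτ hfix' hinj w
    rw [infImage_refl415] at h1
    exact PlaceDatum.pr_tau_eq_self (infPlace K w) (algebraMap K (AdeleRing (𝓞 K) K)) τ hτ hfix
      (denseRange_inf415 w) h1 a

/-- **Two continuous ring automorphisms of the adele ring which agree on `K` are equal.** -/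
theorem adele_aut_unique415 (τ₁ τ₂ : AdeleRing (𝓞 K) K ≃+* AdeleRing (𝓞 K) K)
    (h₁ : Continuous τ₁.symm) (h₂ : Continuous τ₂)
    (h : ∀ x : K, τ₁ (algebraMap K (AdeleRing (𝓞 K) K) x)
      = τ₂ (algebraMap K (AdeleRing (𝓞 K) K) x)) : τ₁ = τ₂ := by
  ext1 a
  have key := adele_endo_eq_id415 ((τ₁.symm : AdeleRing (𝓞 K) K →+* AdeleRing (𝓞 K) K).comp
      (τ₂ : AdeleRing (𝓞 K) K →+* AdeleRing (𝓞 K) K)) (h₁.comp h₂)
      (τ₁.symm.injective.comp τ₂.injective)
      (fun x => by
        change τ₁.symm (τ₂ (algebraMap K (AdeleRing (𝓞 K) K) x)) = _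
        rw [← h x, RingEquiv.symm_apply_apply]) a
  have key' : τ₁.symm (τ₂ a) = a := key
  rw [← key', RingEquiv.apply_symm_apply]
  exact (congrArg τ₂ key').symm

/-- **If `σ ^ l = 1`, then `τ ^ l = 1`.** -/
theorem adele_aut_iterate415 (σ : K ≃+* K)
    (τ : AdeleRing (𝓞 K) K →+* AdeleRing (𝓞 K) K) (hτ : Continuous τ)
    (hinj : Function.Injective τ)
    (hτσ : ∀ x : K, τ (algebraMap K (AdeleRing (𝓞 K) K) x)
      = algebraMap K (AdeleRing (𝓞 K) K) (σ x))
    (l : ℕ) (hl : ∀ x : K, (σ ^ l) x = x) (a : AdeleRing (𝓞 K) K) : (⇑τ)^[l] a = a := by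
  have hpow : ∀ n : ℕ, ∀ x : K, (⇑τ)^[n] (algebraMap K (AdeleRing (𝓞 K) K) x)
      = algebraMap K (AdeleRing (𝓞 K) K) ((σ ^ n) x) := by
    intro n
    induction n with
    | zero => intro x; simp
    | succ n ih =>
      intro x
      rw [Function.iterate_succ_apply', ih, hτσ, pow_succ']
      rfl
  have hcoe : ∀ n : ℕ, ⇑(τ ^ n) = (⇑τ)^[n] := by
    intro n
    induction n with
    | zero => rfl
    | succ n ih =>
      funext y
      rw [pow_succ', Function.iterate_succ_apply', ← ih]
      rfl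
  have h := adele_endo_eq_id415 (τ ^ l) (by rw [hcoe]; exact hτ.iterate l)
    (by rw [hcoe]; exact hinj.iterate l)
    (fun x => by rw [hcoe, hpow, hl]) a
  rw [hcoe] at h
  exact h

end Fermat.Agent.LT.H415
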