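import Mathlib
import Fermat.Agent.LT.H415.AutUnique

/-!
# Row LT, asset AUT-UNIQUE (helper415): the local maps preserve the valuations

OFF-MAIN.  Mathlib only.

* `valuation_sigma415` : `v' = σ v` ⟹ `v'.valuation (σ x) = v.valuation x` for `x ∈ K`;
* `valued_local415` : a continuous ring homomorphism `ψ : K_v → K_{v'}` which is `σ` on `K`
  preserves `Valued.v`;
* `valued_tau_fin415` : `Valued.v ((τ a).2 v') = Valued.v (a.2 v)`;
* `finRel_exists415`, `infImage_surjective415` : `σ` permutes the places.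
-/

set_option autoImplicit false
set_option linter.unusedSectionVars false

open IsDedekindDomain NumberField Filter Topology WithZero

noncomputable section

namespace Fermat.Agent.LT.H415

variable {K : Type*} [Field K] [NumberField K]

theorem mem_pow_iff415 (e : 𝓞 K ≃+* 𝓞 K) (v v' : HeightOneSpectrum (𝓞 K))
    (hv : v'.asIdeal = Ideal.map e v.asIdeal) (r : 𝓞 K) (n : ℕ) :
    e r ∈ v'.asIdeal ^ n ↔ r ∈ v.asIdeal ^ n := by
  rw [hv, ← Ideal.map_pow, Ideal.mem_map_of_equiv]
  constructor
  · rintro ⟨x, hx, hxr⟩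
    rw [← e.injective hxr]
    exact hx
  · intro h
    exact ⟨r, h, rfl⟩

theorem intValuation_equiv415 (e : 𝓞 K ≃+* 𝓞 K) (v v' : HeightOneSpectrum (𝓞 K))
    (hv : v'.asIdeal = Ideal.map e v.asIdeal) (r : 𝓞 K) :
    v'.intValuation (e r) = v.intValuation r := by
  rcases eq_or_ne r 0 with rfl | hr
  · simp
  have her : e r ≠ 0 := fun h => hr (e.injective (by rw [h, map_zero]))
  have key : ∀ n : ℕ, v'.intValuation (e r) ≤ exp (-(n : ℤ)) ↔
      v.intValuation r ≤ exp (-(n : ℤ)) := by
    intro n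
    rw [HeightOneSpectrum.intValuation_le_pow_iff_mem, HeightOneSpectrum.intValuation_le_pow_iff_mem]
    exact mem_pow_iff415 e v v' hv r n
  have hA := v'.intValuation_eq_exp_neg_multiplicity her
  have hB := v.intValuation_eq_exp_neg_multiplicity hr
  apply le_antisymm
  · have h := (key _).2 hB.le
    rw [← hB] at h
    exact h
  · have h := (key _).1 hA.le
    rw [← hA] at h
    exact h

/-- `v' = σ v` ⟹ `|σ x|_{v'} = |x|_v`. -/
theorem valuation_sigma415 (σ : K ≃+* K) (v v' : HeightOneSpectrum (𝓞 K))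
    (hv : FinRel K σ v v') (x : K) : v'.valuation K (σ x) = v.valuation K x := by
  obtain ⟨r, s, hs, rfl⟩ := IsFractionRing.div_surjective (A := 𝓞 K) x
  have h1 : σ (algebraMap (𝓞 K) K r / algebraMap (𝓞 K) K s)
      = algebraMap (𝓞 K) K (NumberField.RingOfIntegers.mapRingEquiv σ r)
        / algebraMap (𝓞 K) K (NumberField.RingOfIntegers.mapRingEquiv σ s) := by
    rw [map_div₀]
    rfl
  rw [h1, map_div₀, map_div₀, HeightOneSpectrum.valuation_of_algebraMap,
    HeightOneSpectrum.valuation_of_algebraMap, HeightOneSpectrum.valuation_of_algebraMap,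
    HeightOneSpectrum.valuation_of_algebraMap, intValuation_equiv415 _ v v' hv,
    intValuation_equiv415 _ v v' hv]

/-- A continuous ring homomorphism `K_v → K_{v'}` which is `σ` on `K` preserves the valuation. -/
theorem valued_local415 (σ : K ≃+* K) (v v' : HeightOneSpectrum (𝓞 K)) (hv : FinRel K σ v v')
    (ψ : v.adicCompletion K →+* v'.adicCompletion K) (hψ : Continuous ψ)
    (hψσ : ∀ x : K, ψ (x : v.adicCompletion K) = ((σ x : K) : v'.adicCompletion K))
    (a : v.adicCompletion K) : Valued.v (ψ a) = Valued.v a := by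
  rcases eq_or_ne a 0 with rfl | ha
  · simp
  have hψa : ψ a ≠ 0 := (map_ne_zero ψ).2 ha
  have hU : {b : v.adicCompletion K | Valued.v b = Valued.v a} ∈ 𝓝 a :=
    Valued.locally_const ((Valuation.ne_zero_iff _).2 ha)
  have hV : {c : v'.adicCompletion K | Valued.v c = Valued.v (ψ a)} ∈ 𝓝 (ψ a) :=
    Valued.locally_const ((Valuation.ne_zero_iff _).2 hψa)
  have hV' : ψ ⁻¹' {c : v'.adicCompletion K | Valued.v c = Valued.v (ψ a)} ∈ 𝓝 a :=
    hψ.continuousAt hV
  have hd : DenseRange (algebraMap K (v.adicCompletion K)) :=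
    HeightOneSpectrum.denseRange_algebraMap K v
  obtain ⟨b, ⟨x, rfl⟩, hb1, hb2⟩ := hd.inter_nhds_nonempty (Filter.inter_mem hU hV')
  have h1 : Valued.v (algebraMap K (v.adicCompletion K) x) = Valued.v a := hb1
  have h2 : Valued.v (ψ (algebraMap K (v.adicCompletion K) x)) = Valued.v (ψ a) := hb2
  have h3 : ψ (algebraMap K (v.adicCompletion K) x) = ((σ x : K) : v'.adicCompletion K) :=
    hψσ x
  have h4 : Valued.v (algebraMap K (v.adicCompletion K) x) = v.valuation K x :=
    HeightOneSpectrum.valuedAdicCompletion_eq_valuation' v x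
  have h5 : Valued.v (((σ x : K) : v'.adicCompletion K)) = v'.valuation K (σ x) :=
    HeightOneSpectrum.valuedAdicCompletion_eq_valuation' v' (σ x)
  rw [← h2, h3, h5, valuation_sigma415 σ v v' hv, ← h4, h1]

section Tau

variable (σ : K ≃+* K) (τ : AdeleRing (𝓞 K) K →+* AdeleRing (𝓞 K) K) (hτ : Continuous τ)
  (hτσ : ∀ x : K, τ (algebraMap K (AdeleRing (𝓞 K) K) x) = algebraMap K (AdeleRing (𝓞 K) K) (σ x))
  (hinj : Function.Injective τ)

include hτ hτσ hinj

/-- **`τ` preserves the valuations of the components at corresponding finite places.** -/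
theorem valued_tau_fin415 (v v' : HeightOneSpectrum (𝓞 K)) (hv : FinRel K σ v v')
    (a : AdeleRing (𝓞 K) K) : Valued.v ((τ a).2 v') = Valued.v (a.2 v) := by
  rw [fin_transport415 σ τ hτ hτσ hinj v v' hv a]
  exact valued_local415 σ v v' hv _ (continuous_finLocal415 σ τ hτ hτσ hinj v v' hv)
    (finLocal415_coe σ τ hτ hτσ hinj v v' hv) _

/-- Components at `σ v` of `τ a` only depend on the component of `a` at `v`. -/
theorem tau_fin_congr415 (v v' : HeightOneSpectrum (𝓞 K)) (hv : FinRel K σ v v')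
    (a b : AdeleRing (𝓞 K) K) (h : a.2 v = b.2 v) : (τ a).2 v' = (τ b).2 v' := by
  rw [fin_transport415 σ τ hτ hτσ hinj v v' hv a, fin_transport415 σ τ hτ hτσ hinj v v' hv b, h]

/-- Components at `σ w` of `τ a` only depend on the component of `a` at `w`. -/
theorem tau_inf_congr415 (w : InfinitePlace K) (a b : AdeleRing (𝓞 K) K) (h : a.1 w = b.1 w) :
    (τ a).1 (infImage K σ w) = (τ b).1 (infImage K σ w) := by
  rw [inf_transport415 σ τ hτ hτσ hinj w a, inf_transport415 σ τ hτ hτσ hinj w b, h]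

end Tau

/-! ## `σ` permutes the places -/

/-- Every finite place has an image under `σ`. -/
theorem finRel_exists_image415 (σ : K ≃+* K) (v : HeightOneSpectrum (𝓞 K)) :
    ∃ v' : HeightOneSpectrum (𝓞 K), FinRel K σ v v' := by
  refine ⟨HeightOneSpectrum.equivOfRingEquiv (NumberField.RingOfIntegers.mapRingEquiv σ) v, ?_⟩
  unfold FinRel
  ext y
  rw [Ideal.mem_map_of_equiv]
  change (NumberField.RingOfIntegers.mapRingEquiv σ).symm y ∈ v.asIdeal ↔ _
  constructor
  · intro hy
    exact ⟨_, hy, by simp⟩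
  · rintro ⟨x, hx, rfl⟩
    simpa using hx

theorem finRel_symm415 (σ : K ≃+* K) (v v' : HeightOneSpectrum (𝓞 K)) (h : FinRel K σ v v') :
    FinRel K σ.symm v' v := by
  unfold FinRel at h ⊢
  ext y
  rw [Ideal.mem_map_of_equiv]
  constructor
  · intro hy
    refine ⟨NumberField.RingOfIntegers.mapRingEquiv σ y, ?_, ?_⟩
    · rw [h, Ideal.mem_map_of_equiv]
      exact ⟨y, hy, rfl⟩
    · ext
      simp [NumberField.RingOfIntegers.mapRingEquiv_apply]
  · rintro ⟨x, hx, rfl⟩
    rw [h, Ideal.mem_map_of_equiv] at hx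
    obtain ⟨z, hz, rfl⟩ := hx
    have : (NumberField.RingOfIntegers.mapRingEquiv σ.symm)
        ((NumberField.RingOfIntegers.mapRingEquiv σ) z) = z := by
      ext
      simp [NumberField.RingOfIntegers.mapRingEquiv_apply]
    rw [this]
    exact hz

/-- Every finite place is the image of a finite place under `σ`. -/
theorem finRel_exists_preimage415 (σ : K ≃+* K) (v' : HeightOneSpectrum (𝓞 K)) :
    ∃ v : HeightOneSpectrum (𝓞 K), FinRel K σ v v' := by
  obtain ⟨v, hv⟩ := finRel_exists_image415 σ.symm v'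
  refine ⟨v, ?_⟩
  have := finRel_symm415 σ.symm v' v hv
  simpa using this

/-- The image is unique. -/
theorem finRel_unique415 (σ : K ≃+* K) (v v₁ v₂ : HeightOneSpectrum (𝓞 K))
    (h₁ : FinRel K σ v v₁) (h₂ : FinRel K σ v v₂) : v₁ = v₂ :=
  HeightOneSpectrum.ext (h₁.trans h₂.symm)

/-- The preimage is unique. -/
theorem finRel_inj415 (σ : K ≃+* K) (v₁ v₂ v' : HeightOneSpectrum (𝓞 K))
    (h₁ : FinRel K σ v₁ v') (h₂ : FinRel K σ v₂ v') : v₁ = v₂ :=
  finRel_unique415 σ.symm v' v₁ v₂ (finRel_symm415 σ v₁ v' h₁) (finRel_symm415 σ v₂ v' h₂)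

theorem infImage_symm415 (σ : K ≃+* K) (w : InfinitePlace K) :
    infImage K σ (infImage K σ.symm w) = w := by
  refine InfinitePlace.ext _ _ fun x => ?_
  have h1 := infImage_apply σ (infImage K σ.symm w) (σ.symm x)
  have h2 := infImage_apply σ.symm w x
  rw [RingEquiv.apply_symm_apply] at h1
  rw [h1, h2]

/-- Every infinite place is the image of an infinite place under `σ`. -/
theorem infImage_surjective415 (σ : K ≃+* K) : Function.Surjective (infImage K σ) :=
  fun w => ⟨infImage K σ.symm w, infImage_symm415 σ w⟩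

end Fermat.Agent.LT.H415
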